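/-
Line systems attached to local equations, and comparison of line systems through regular
sections with associated equations.
-/
import Fermat.Agent.Jacobian.Line.Sections

set_option autoImplicit false
set_option linter.unusedVariables false

universe u

open CategoryTheory AlgebraicGeometry TopologicalSpace Opposite

noncomputable section

namespace Fermat.Agent.Jacobian

variable {X : Scheme.{u}}

/-- A function on `U` which is regular on every smaller open. -/
def RegularOn {U : X.Opens} (f : Γ(X, U)) : Prop :=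
  ∀ (V : X.Opens) (h : V ≤ U), IsRegular (res h f)

theorem RegularOn.res {U V : X.Opens} {f : Γ(X, U)} (hf : RegularOn f) (h : V ≤ U) :
    RegularOn (Fermat.Agent.Jacobian.res h f) := fun W hW => by
  rw [res_res]
  exact hf W _

/-- Regularity is local. -/
theorem regularOn_of_cover {ι : Type*} {U : X.Opens} (V : ι → X.Opens) (hV : ∀ i, V i ≤ U)
    (hU : U ≤ iSup V) (f : Γ(X, U)) (h : ∀ i, RegularOn (Fermat.Agent.Jacobian.res (hV i) f)) :
    RegularOn f := by
  intro W hW
  rw [isRegular_iff_eq_zero_of_mul]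
  refine ⟨fun a ha => ?_, fun a ha => ?_⟩ <;>
  · refine X.sheaf.eq_of_locally_eq' (fun i => W ⊓ V i) W (fun i => homOfLE inf_le_left)
      (fun p hp => ?_) a 0 fun i => ?_
    · obtain ⟨i, hi⟩ := Opens.mem_iSup.mp (hU (hW hp))
      exact Opens.mem_iSup.mpr ⟨i, hp, hi⟩
    show Fermat.Agent.Jacobian.res (inf_le_left : W ⊓ V i ≤ W) a =
      Fermat.Agent.Jacobian.res inf_le_left (0 : Γ(X, W))
    rw [map_zero]
    have := congrArg (Fermat.Agent.Jacobian.res (inf_le_left : W ⊓ V i ≤ W)) ha
    rw [map_mul, map_zero, res_res] at this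
    have hi := h i (W ⊓ V i) inf_le_right
    rw [res_res] at hi
    first
      | exact hi.left.mul_left_eq_zero_iff.mp this
      | exact hi.right.mul_right_eq_zero_iff.mp this

/-- The unique unit relating two associated regular functions. -/
theorem existsUnique_unit_mul {V : X.Opens} {a b : Γ(X, V)} (hb : IsRegular b)
    (h : Associated b a) : ∃! u : Γ(X, V)ˣ, a = u * b := by
  obtain ⟨u, hu⟩ := h
  refine ⟨u, by simp only; rw [← hu, mul_comm], fun v hv => Units.ext (hb.right ?_)⟩
  show (v : Γ(X, V)) * b = u * b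
  rw [← hv, ← hu, mul_comm]

/-- Local equations of an effective divisor. -/
structure Equations (X : Scheme.{u}) where
  U : X → X.Opens
  mem : ∀ x, x ∈ U x
  f : ∀ x, Γ(X, U x)
  regular : ∀ x, RegularOn (f x)
  assoc : ∀ (x y : X), Associated (res (inf_le_right : U x ⊓ U y ≤ U y) (f y))
    (res inf_le_left (f x))

namespace Equations

variable (E : Equations X)

theorem exists_unit (x y : X) (V : X.Opens) (hx : V ≤ E.U x) (hy : V ≤ E.U y) :
    ∃! u : Γ(X, V)ˣ, res hx (E.f x) = u * res hy (E.f y) := by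
  refine existsUnique_unit_mul (E.regular y V hy) ?_
  have := (E.assoc x y).map (res (le_inf hx hy))
  rwa [res_res, res_res] at this

/-- The ratio of two equations. -/
def ratio (x y : X) (V : X.Opens) (hx : V ≤ E.U x) (hy : V ≤ E.U y) : Γ(X, V)ˣ :=
  (E.exists_unit x y V hx hy).choose

theorem ratio_spec (x y : X) (V : X.Opens) (hx : V ≤ E.U x) (hy : V ≤ E.U y) :
    res hx (E.f x) = E.ratio x y V hx hy * res hy (E.f y) :=
  (E.exists_unit x y V hx hy).choose_spec.1

theorem ratio_unique (x y : X) (V : X.Opens) (hx : V ≤ E.U x) (hy : V ≤ E.U y) (u : Γ(X, V)ˣ)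
    (hu : res hx (E.f x) = u * res hy (E.f y)) : u = E.ratio x y V hx hy :=
  (E.exists_unit x y V hx hy).choose_spec.2 u hu

/-- The line system `O(D)`. -/
def line : LineSys X where
  U := E.U
  mem := E.mem
  g := E.ratio
  g_res x y V W h hx hy := E.ratio_unique _ _ _ _ _ _ (by
    rw [Units.coe_map, RingHom.toMonoidHom_eq_coe, MonoidHom.coe_coe, ← res_res hy h,
      ← map_mul, ← E.ratio_spec, res_res])
  g_mul x y z V hx hy hz := E.ratio_unique _ _ _ _ _ _ (by
    rw [Units.val_mul, mul_assoc, ← E.ratio_spec, ← E.ratio_spec])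

/-- The section `1` of `O(D)`. -/
def one : E.line.Sec ⊤ :=
  LineSys.Sec.mk' (fun x W h hx => res hx (E.f x)) (fun x W W' i h hx => res_res hx i _)
    (fun x y W h hx hy => E.ratio_spec x y W hx hy)

@[simp]
theorem coord_one (x : X) (W : X.Opens) (h : W ≤ ⊤) (hx : W ≤ E.U x) :
    E.one.coord x W h hx = res hx (E.f x) := rfl

end Equations

/-- Two line systems with sections whose coordinates are, locally, regular and associated are
isomorphic, by an isomorphism carrying one section to the other. -/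
theorem exists_iso_of_associated {L L' : LineSys X} (s : L.Sec ⊤) (s' : L'.Sec ⊤)
    (H : ∀ (x a q : X) (hq : q ∈ L.U x ⊓ L'.U a),
      ∃ (V : X.Opens) (_ : q ∈ V) (hV : V ≤ L.U x ⊓ L'.U a),
        RegularOn (s'.coord a V le_top (hV.trans inf_le_right)) ∧
          Associated (s'.coord a V le_top (hV.trans inf_le_right))
            (s.coord x V le_top (hV.trans inf_le_left))) :
    ∃ e : LineSys.Iso L L', LineSys.Sec.IsImage e s s' := by
  have huniq : ∀ (x a : X) (V : X.Opens) (hx : V ≤ L.U x) (ha : V ≤ L'.U a) (u v : Γ(X, V)ˣ),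
      s.coord x V le_top hx = u * s'.coord a V le_top ha →
      s.coord x V le_top hx = v * s'.coord a V le_top ha → u = v := by
    intro x a V hx ha u v hu hv
    refine LineSys.units_ext (fun q : {q : X // q ∈ V} =>
      V ⊓ (H x a q.1 ⟨hx q.2, ha q.2⟩).choose) V (fun q => inf_le_left) (fun q hq => ?_) u v
      fun q => ?_
    · exact Opens.mem_iSup.mpr ⟨⟨q, hq⟩, hq, (H x a q ⟨hx hq, ha hq⟩).choose_spec.choose⟩
    · obtain ⟨hm, hV, hreg, -⟩ := (H x a q.1 ⟨hx q.2, ha q.2⟩).choose_spec
      set V' := (H x a q.1 ⟨hx q.2, ha q.2⟩).choose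
      have r := hreg (V ⊓ V') inf_le_right
      rw [s'.coord_res] at r
      refine Units.ext (r.right ?_)
      show res _ (u : Γ(X, V)) * _ = res _ (v : Γ(X, V)) * _
      rw [← s'.coord_res a inf_le_left le_top ha, ← map_mul, ← map_mul, ← hu, ← hv]
  have hex : ∀ (x a : X) (V : X.Opens) (hx : V ≤ L.U x) (ha : V ≤ L'.U a),
      ∃! u : Γ(X, V)ˣ, s.coord x V le_top hx = u * s'.coord a V le_top ha := by
    intro x a V hx ha
    refine existsUnique_of_exists_of_unique ?_ fun u v => huniq x a V hx ha u v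
    have hV : ∀ q : {q : X // q ∈ V}, ∃ (V' : X.Opens) (_ : q.1 ∈ V') (i : V' ≤ V) (u : Γ(X, V')ˣ),
        s.coord x V' le_top (i.trans hx) = u * s'.coord a V' le_top (i.trans ha) := by
      rintro ⟨q, hq⟩
      obtain ⟨V', hm, hV, hreg, hass⟩ := H x a q ⟨hx hq, ha hq⟩
      obtain ⟨u, hu⟩ := hass
      refine ⟨V ⊓ V', ⟨hq, hm⟩, inf_le_left, resU inf_le_right u, ?_⟩
      rw [← s.coord_res x (inf_le_right : V ⊓ V' ≤ V') le_top (hV.trans inf_le_left), ← hu, map_mul,
        s'.coord_res, mul_comm]
      rfl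
    choose V' hm hi u hu using hV
    have hcov : V ≤ iSup V' := fun q hq => Opens.mem_iSup.mpr ⟨⟨q, hq⟩, hm ⟨q, hq⟩⟩
    obtain ⟨t, ht, -⟩ := LineSys.existsUnique_glue_units V' V hi hcov u fun i j => by
      refine huniq x a _ (inf_le_left.trans ((hi i).trans hx))
        (inf_le_left.trans ((hi i).trans ha)) _ _ ?_ ?_
      · rw [Units.coe_map, RingHom.toMonoidHom_eq_coe, MonoidHom.coe_coe,
          ← s'.coord_res a inf_le_left le_top ((hi i).trans ha), ← map_mul, ← hu, s.coord_res]
      · rw [Units.coe_map, RingHom.toMonoidHom_eq_coe, MonoidHom.coe_coe,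
          ← s'.coord_res a inf_le_right le_top ((hi j).trans ha), ← map_mul, ← hu, s.coord_res]
    refine ⟨t, X.sheaf.eq_of_locally_eq' V' V (fun i => homOfLE (hi i)) hcov _ _ fun i => ?_⟩
    show res (hi i) _ = res (hi i) _
    rw [map_mul, s.coord_res, s'.coord_res, hu, ← ht i]
    rfl
  choose h hh hu using hex
  refine ⟨{ h := h, h_res := ?_, g_h := ?_, h_g := ?_ }, ?_⟩
  · intro x a V W i hx ha
    refine hu x a W _ _ _ ?_
    simp only [Units.coe_map, RingHom.toMonoidHom_eq_coe, MonoidHom.coe_coe]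
    rw [← s.coord_res x i le_top hx, ← s'.coord_res a i le_top ha, ← map_mul, ← hh x a V hx ha]
  · intro x y a V hx hy ha
    refine hu x a V hx ha _ ?_
    simp only [Units.val_mul]
    rw [mul_assoc, ← hh y a V hy ha, ← s.coord_g]
  · intro x a b V hx ha hb
    refine hu x b V hx hb _ ?_
    simp only [Units.val_mul]
    rw [mul_assoc, ← s'.coord_g, ← hh x a V hx ha]
  · intro x a W h' hx ha
    exact hh x a W hx ha

end Fermat.Agent.Jacobian
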