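/-
The effective divisor cut out by a locally principal regular ideal of an affine open, whose zero
locus avoids a second open.
-/
import Fermat.Agent.Jacobian.Divisor.Equations
import Fermat.Agent.Jacobian.Core.Hilb

set_option autoImplicit false
set_option linter.unusedVariables false

universe u

open CategoryTheory AlgebraicGeometry TopologicalSpace Opposite

noncomputable section

namespace Fermat.Agent.Jacobian

variable {X : Scheme.{u}}

/-- Two generators of an ideal, one of them regular, are associated. -/
theorem associated_of_span_eq {A : Type u} [CommRing A] {a b : A} (hb : IsRegular b)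
    (h : Ideal.span {a} = Ideal.span {b}) : Associated b a := by
  obtain ⟨u, hu⟩ := Ideal.mem_span_singleton'.mp
    (h.symm.le (Ideal.mem_span_singleton_self b))
  obtain ⟨v, hv⟩ := Ideal.mem_span_singleton'.mp (h.le (Ideal.mem_span_singleton_self a))
  have huv : u * v = 1 := hb.right (show u * v * b = 1 * b by rw [one_mul, mul_assoc, hv, hu])
  exact ⟨⟨v, u, (mul_comm _ _).trans huv, huv⟩, (mul_comm _ _).trans hv⟩

/-- On an affine open, a regular function stays regular on every smaller open. -/
theorem regularOn_of_isAffineOpen {U : X.Opens} (hU : IsAffineOpen U) {f : Γ(X, U)}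
    (hf : IsRegular f) : RegularOn f := by
  intro V hV
  have key : ∀ b : Γ(X, U), IsRegular (res (X.basicOpen_le b) f) := by
    intro b
    have : IsLocalization.Away b Γ(X, X.basicOpen b) := hU.isLocalization_basicOpen b
    rw [isRegular_iff_mem_nonZeroDivisors]
    exact IsLocalization.map_nonZeroDivisors_le (Submonoid.powers b) Γ(X, X.basicOpen b)
      ⟨f, hf.mem_nonZeroDivisors, rfl⟩
  have hb : ∀ p : {p : X // p ∈ V}, ∃ b : Γ(X, U), X.basicOpen b ≤ V ∧ p.1 ∈ X.basicOpen b :=
    fun p => hU.exists_basicOpen_le p (hV p.2)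
  choose b hb hm using hb
  rw [isRegular_iff_eq_zero_of_mul]
  refine ⟨fun a ha => ?_, fun a ha => ?_⟩ <;>
  · refine X.sheaf.eq_of_locally_eq' (fun p => X.basicOpen (b p)) V (fun p => homOfLE (hb p))
      (fun p hp => Opens.mem_iSup.mpr ⟨⟨p, hp⟩, hm _⟩) a 0 fun p => ?_
    show res (hb p) a = res (hb p) (0 : Γ(X, V))
    rw [map_zero]
    have := congrArg (res (hb p)) ha
    rw [map_mul, map_zero, res_res] at this
    first
      | exact (key (b p)).left.mul_left_eq_zero_iff.mp this
      | exact (key (b p)).right.mul_right_eq_zero_iff.mp this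

/-- The hypotheses: an ideal on an affine open, trivial on the overlap with a second open. -/
structure IdealDatum (X : Scheme.{u}) where
  W0 : X.Opens
  affine : IsAffineOpen W0
  W1 : X.Opens
  cover : W0 ⊔ W1 = ⊤
  J : Ideal Γ(X, W0)
  locPrincipal : LocPrincipalRegular J
  exists_unit : ∃ r ∈ J, IsUnit (res (inf_le_left : W0 ⊓ W1 ≤ W0) r)

namespace IdealDatum

variable (d : IdealDatum X)

/-- `f` is an equation of the datum on the open `V`. -/
def IsEq {V : X.Opens} (f : Γ(X, V)) : Prop :=
  RegularOn f ∧ ((V ≤ d.W1 ∧ f = 1) ∨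
    ∃ hV : V ≤ d.W0, d.J.map (res hV) = Ideal.span {f})

theorem map_eq_span {V : X.Opens} {f : Γ(X, V)} (h : d.IsEq f) {W : X.Opens} (i : W ≤ V)
    (hW : W ≤ d.W0) : d.J.map (res hW) = Ideal.span {res i f} := by
  rcases h.2 with ⟨hV, rfl⟩ | ⟨hV, he⟩
  · rw [map_one, Ideal.span_singleton_one]
    obtain ⟨r, hr, hu⟩ := d.exists_unit
    refine Ideal.eq_top_of_isUnit_mem _ (Ideal.mem_map_of_mem _ hr) ?_
    have := hu.map (res (le_inf hW (i.trans hV)))
    rwa [res_res] at this
  · have := congrArg (Ideal.map (res i)) he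
    rw [Ideal.map_map, Ideal.map_span, Set.image_singleton] at this
    rw [← this]
    congr 1
    exact RingHom.ext fun a => (res_res hV i a).symm

theorem exists_isEq (x : X) : ∃ (V : X.Opens) (_ : x ∈ V) (f : Γ(X, V)), d.IsEq f := by
  by_cases hx : x ∈ d.W1
  · exact ⟨d.W1, hx, 1, fun V hV => by rw [map_one]; exact isRegular_one, Or.inl ⟨le_rfl, rfl⟩⟩
  have hx0 : x ∈ d.W0 := by
    have : x ∈ d.W0 ⊔ d.W1 := by rw [d.cover]; trivial
    exact this.resolve_right hx
  let q := d.affine.primeIdealOf ⟨x, hx0⟩
  obtain ⟨h, hq, f, hf, he⟩ := d.locPrincipal q.asIdeal q.isPrime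
  have := d.affine.isLocalization_basicOpen h
  let e := IsLocalization.algEquiv (Submonoid.powers h) (Localization.Away h) Γ(X, X.basicOpen h)
  refine ⟨X.basicOpen h, ?_, e f, ?_, Or.inr ⟨X.basicOpen_le h, ?_⟩⟩
  · by_contra hc
    apply hq
    have hmem : q ∉ (d.affine.fromSpec ⁻¹ᵁ X.basicOpen h) := by
      show d.affine.fromSpec q ∉ X.basicOpen h
      rw [d.affine.fromSpec_primeIdealOf]
      exact hc
    rw [d.affine.fromSpec_preimage_basicOpen] at hmem
    exact not_not.mp hmem
  · refine regularOn_of_isAffineOpen (d.affine.basicOpen h) ?_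
    rw [isRegular_iff_mem_nonZeroDivisors]
    exact MulEquivClass.map_nonZeroDivisors e.toRingEquiv.toMulEquiv ▸ ⟨f, hf, rfl⟩
  · have h2 := congrArg (Ideal.map (e : Localization.Away h →+* Γ(X, X.basicOpen h))) he
    rw [Ideal.map_map, Ideal.map_span, Set.image_singleton] at h2
    refine Eq.trans ?_ h2
    congr 1
    exact RingHom.ext fun a => (e.commutes a).symm

/-- The local equations. -/
def equations : Equations X where
  U x := (d.exists_isEq x).choose
  mem x := (d.exists_isEq x).choose_spec.choose
  f x := (d.exists_isEq x).choose_spec.choose_spec.choose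
  regular x := (d.exists_isEq x).choose_spec.choose_spec.choose_spec.1
  assoc x y := by
    have hx := (d.exists_isEq x).choose_spec.choose_spec.choose_spec
    have hy := (d.exists_isEq y).choose_spec.choose_spec.choose_spec
    refine associated_of_span_eq (hy.1 _ _) ?_
    rcases hx.2 with ⟨hx1, hx2⟩ | ⟨hx0, -⟩
    · rcases hy.2 with ⟨hy1, hy2⟩ | ⟨hy0, -⟩
      · rw [hx2, hy2, map_one, map_one]
      · rw [← d.map_eq_span hx inf_le_left (inf_le_right.trans hy0),
          ← d.map_eq_span hy inf_le_right (inf_le_right.trans hy0)]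
    · rw [← d.map_eq_span hx inf_le_left (inf_le_left.trans hx0),
        ← d.map_eq_span hy inf_le_right (inf_le_left.trans hx0)]

theorem equations_isEq (x : X) : d.IsEq (d.equations.f x) :=
  (d.exists_isEq x).choose_spec.choose_spec.choose_spec

end IdealDatum

end Fermat.Agent.Jacobian
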