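/-
The ideal of zeros of a section on an affine open: existence, uniqueness, inverse image.
-/
import Fermat.Agent.Jacobian.Divisor.OfIdeal

set_option autoImplicit false
set_option linter.unusedVariables false

universe u

open CategoryTheory AlgebraicGeometry TopologicalSpace Opposite

noncomputable section

namespace Fermat.Agent.Jacobian

variable {X Y : Scheme.{u}}

/-- The ideal `J` of the functions on `W` is the ideal of zeros of `s`. -/
def CutsOut {L : LineSys X} (s : L.Sec ⊤) (W : X.Opens) (J : Ideal Γ(X, W)) : Prop :=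
  ∀ (x : X) (V : X.Opens) (_ : IsAffineOpen V) (hW : V ≤ W) (hx : V ≤ L.U x),
    J.map (res hW) = Ideal.span {s.coord x V le_top hx}

theorem res_res_comp {U V W : X.Opens} (h : V ≤ U) (h' : W ≤ V) :
    (res h').comp (res h) = res (h'.trans h) :=
  RingHom.ext fun a => res_res h h' a

/-- Ideals of an affine open are determined on a cover by basic opens. -/
theorem ideal_le_of_basicOpen {W : X.Opens} (hW : IsAffineOpen W) {J J' : Ideal Γ(X, W)}
    (h : ∀ q ∈ W, ∃ b : Γ(X, W), q ∈ X.basicOpen b ∧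
      J.map (res (X.basicOpen_le b)) ≤ J'.map (res (X.basicOpen_le b))) : J ≤ J' := by
  intro a ha
  let A : Ideal Γ(X, W) := Submodule.comap (LinearMap.mul Γ(X, W) Γ(X, W) a) J'
  suffices (A : Ideal Γ(X, W)) = ⊤ by
    have h1 : a * 1 ∈ J' := (Ideal.eq_top_iff_one A).mp this
    rwa [mul_one] at h1
  by_contra hA
  obtain ⟨m, hm, hAm⟩ := Ideal.exists_le_maximal A hA
  let q : X := hW.fromSpec ⟨m, hm.isPrime⟩
  have hq : q ∈ W := by
    rw [← SetLike.mem_coe, ← hW.range_fromSpec]
    exact ⟨_, rfl⟩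
  obtain ⟨b, hb, hle⟩ := h q hq
  have := hW.isLocalization_basicOpen b
  obtain ⟨_, ⟨n, rfl⟩, hn⟩ := (IsLocalization.algebraMap_mem_map_algebraMap_iff
    (Submonoid.powers b) Γ(X, X.basicOpen b) J' a).mp (hle (Ideal.mem_map_of_mem _ ha))
  have hbm : b ∉ m := by
    intro hbm
    have : (⟨m, hm.isPrime⟩ : PrimeSpectrum Γ(X, W)) ∉ PrimeSpectrum.basicOpen b :=
      fun h => h hbm
    apply this
    rw [← hW.fromSpec_preimage_basicOpen]
    exact hb
  exact hbm (hm.isPrime.mem_of_pow_mem n (hAm (show b ^ n ∈ A from (show a * b ^ n ∈ J' by rwa [mul_comm]))))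

theorem exists_basicOpen_le_U (L : LineSys X) {W : X.Opens} (hW : IsAffineOpen W) {q : X}
    (hq : q ∈ W) : ∃ b : Γ(X, W), X.basicOpen b ≤ L.U q ∧ q ∈ X.basicOpen b := by
  obtain ⟨b, hb, hm⟩ := hW.exists_basicOpen_le ⟨q, L.mem q⟩ hq
  exact ⟨b, hb, hm⟩

theorem CutsOut.unique {L : LineSys X} {s : L.Sec ⊤} {W : X.Opens} (hW : IsAffineOpen W)
    {J J' : Ideal Γ(X, W)} (h : CutsOut s W J) (h' : CutsOut s W J') : J = J' := by
  have key : ∀ q ∈ W, ∃ b : Γ(X, W), q ∈ X.basicOpen b ∧
      J.map (res (X.basicOpen_le b)) = J'.map (res (X.basicOpen_le b)) := fun q hq => by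
    obtain ⟨b, hb, hm⟩ := exists_basicOpen_le_U L hW hq
    exact ⟨b, hm, (h q _ (hW.basicOpen b) (X.basicOpen_le b) hb).trans
      (h' q _ (hW.basicOpen b) _ hb).symm⟩
  refine le_antisymm (ideal_le_of_basicOpen hW fun q hq => ?_)
    (ideal_le_of_basicOpen hW fun q hq => ?_)
  · obtain ⟨b, hb, he⟩ := key q hq
    exact ⟨b, hb, he.le⟩
  · obtain ⟨b, hb, he⟩ := key q hq
    exact ⟨b, hb, he.ge⟩

theorem CutsOut.restrict {L : LineSys X} {s : L.Sec ⊤} {W : X.Opens} {J : Ideal Γ(X, W)}
    (h : CutsOut s W J) {W' : X.Opens} (i : W' ≤ W) : CutsOut s W' (J.map (res i)) := by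
  intro x V ha hV hx
  rw [Ideal.map_map, res_res_comp]
  exact h x V ha _ hx

/-- It is enough to check the defining property at the frames of a cover. -/
theorem cutsOut_of_cover {L : LineSys X} {s : L.Sec ⊤} {W : X.Opens} {J : Ideal Γ(X, W)}
    (h : ∀ q ∈ W, ∃ (x : X) (B : X.Opens) (_ : q ∈ B) (hW : B ≤ W) (hx : B ≤ L.U x),
      J.map (res hW) = Ideal.span {s.coord x B le_top hx}) : CutsOut s W J := by
  intro x V hV hVW hx
  have key : ∀ q ∈ V, ∃ (b : Γ(X, V)), q ∈ X.basicOpen b ∧
      (J.map (res hVW)).map (res (X.basicOpen_le b)) =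
        (Ideal.span {s.coord x V le_top hx}).map (res (X.basicOpen_le b)) := by
    intro q hq
    obtain ⟨a, B, hqB, hBW, ha, he⟩ := h q (hVW hq)
    obtain ⟨b, hb, hm⟩ := hV.exists_basicOpen_le ⟨q, hqB⟩ hq
    refine ⟨b, hm, ?_⟩
    have e2 := congrArg (Ideal.map (res (show X.basicOpen b ≤ B from hb))) he
    rw [Ideal.map_map, res_res_comp, Ideal.map_span, Set.image_singleton, s.coord_res] at e2
    rw [Ideal.map_map, res_res_comp, Ideal.map_span, Set.image_singleton, s.coord_res, e2,
      s.coord_g x a _ le_top (((X.basicOpen_le b)).trans hx)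
        ((show X.basicOpen b ≤ B from hb).trans ha),
      Ideal.span_singleton_mul_left_unit (Units.isUnit _)]
  refine le_antisymm (ideal_le_of_basicOpen hV fun q hq => ?_)
    (ideal_le_of_basicOpen hV fun q hq => ?_)
  · obtain ⟨b, hb, he⟩ := key q hq
    exact ⟨b, hb, he.le⟩
  · obtain ⟨b, hb, he⟩ := key q hq
    exact ⟨b, hb, he.ge⟩

/-- A section of a line system cuts out an ideal on every affine open. -/
theorem exists_cutsOut {L : LineSys X} (s : L.Sec ⊤) {W : X.Opens} (hW : IsAffineOpen W) :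
    ∃ J : Ideal Γ(X, W), CutsOut s W J ∧ J.FG := by
  obtain ⟨S, hS⟩ : ∃ S : Finset {q : X // q ∈ W},
      W ≤ ⨆ q ∈ S, X.basicOpen (exists_basicOpen_le_U L hW q.2).choose := by
    have hcpt := hW.isCompact
    obtain ⟨S, hS⟩ := hcpt.elim_finite_subcover
      (fun q : {q : X // q ∈ W} => (X.basicOpen (exists_basicOpen_le_U L hW q.2).choose : Set X))
      (fun q => (X.basicOpen _).isOpen)
      (fun q hq => Set.mem_iUnion.mpr
        ⟨⟨q, hq⟩, (exists_basicOpen_le_U L hW hq).choose_spec.2⟩)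
    refine ⟨S, fun q hq => ?_⟩
    have := hS hq
    simp only [Set.mem_iUnion, SetLike.mem_coe, exists_prop] at this
    obtain ⟨i, hi, hqi⟩ := this
    simp only [Opens.mem_iSup]
    exact ⟨i, hi, hqi⟩
  let b : {q : X // q ∈ W} → Γ(X, W) := fun q => (exists_basicOpen_le_U L hW q.2).choose
  have hb : ∀ q, X.basicOpen (b q) ≤ L.U q.1 := fun q =>
    (exists_basicOpen_le_U L hW q.2).choose_spec.1
  let c : ∀ q, Γ(X, X.basicOpen (b q)) := fun q => s.coord q.1 _ le_top (hb q)
  -- numerators of the coordinates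
  have hnum : ∀ q, ∃ (a : Γ(X, W)) (u : Γ(X, X.basicOpen (b q))ˣ),
      res (X.basicOpen_le (b q)) a = u * c q := by
    intro q
    have := hW.isLocalization_basicOpen (b q)
    obtain ⟨⟨a, m⟩, hm⟩ := IsLocalization.surj (Submonoid.powers (b q)) (c q)
    refine ⟨a, (IsLocalization.map_units Γ(X, X.basicOpen (b q)) m).unit, ?_⟩
    rw [IsUnit.unit_spec, mul_comm]
    exact hm.symm
  choose a u hu using hnum
  -- a power of `b q` times the numerator is divisible by each coordinate
  have hpow : ∀ q p, ∃ N : ℕ,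
      res (X.basicOpen_le (b p)) (b q ^ N * a q) ∈ Ideal.span {c p} := by
    intro q p
    have hq := hW.isLocalization_basicOpen (b q)
    have hp := hW.isLocalization_basicOpen (b p)
    let β : Γ(X, X.basicOpen (b p)) := res (X.basicOpen_le (b p)) (b q)
    have hβ : X.basicOpen β ≤ X.basicOpen (b q) := by
      rw [Scheme.basicOpen_res]
      exact inf_le_right
    have hβ' : X.basicOpen β ≤ X.basicOpen (b p) := X.basicOpen_le _
    have hmem : res hβ' (res (X.basicOpen_le (b p)) (a q)) ∈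
        (Ideal.span {c p}).map (res hβ') := by
      rw [res_res, Ideal.map_span, Set.image_singleton, s.coord_res,
        ← res_res (X.basicOpen_le (b q)) hβ, hu q, map_mul, s.coord_res,
        s.coord_g q.1 p.1 _ le_top (hβ.trans (hb q)) (hβ'.trans (hb p)), ← mul_assoc]
      exact Ideal.mul_mem_left _ _ (Ideal.mem_span_singleton_self _)
    have := (hW.basicOpen (b p)).isLocalization_basicOpen β
    obtain ⟨_, ⟨N, rfl⟩, hN⟩ := (IsLocalization.algebraMap_mem_map_algebraMap_iff
      (Submonoid.powers β) Γ(X, X.basicOpen β) _ _).mp hmem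
    refine ⟨N, ?_⟩
    rw [map_mul, map_pow]
    exact hN
  choose N hN using hpow
  let M : {q : X // q ∈ W} → ℕ := fun q => ∑ p ∈ S, N q p
  let gen : {q : X // q ∈ W} → Γ(X, W) := fun q => b q ^ M q * a q
  refine ⟨Ideal.span (gen '' S), cutsOut_of_cover fun q hq => ?_, ?_⟩
  · have := hS hq
    simp only [Opens.mem_iSup] at this
    obtain ⟨p, hpS, hqp⟩ := this
    refine ⟨p.1, X.basicOpen (b p), hqp, X.basicOpen_le _, hb p, le_antisymm ?_ ?_⟩
    · rw [Ideal.map_span, Ideal.span_le]
      rintro _ ⟨_, ⟨r, hr, rfl⟩, rfl⟩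
      show res _ (gen r) ∈ Ideal.span {c p}
      have hle : N r p ≤ M r := Finset.single_le_sum (fun i _ => Nat.zero_le _) hpS
      rw [show gen r = b r ^ (M r - N r p) * (b r ^ N r p * a r) by
        rw [← mul_assoc, ← pow_add, Nat.sub_add_cancel hle], map_mul]
      exact Ideal.mul_mem_left _ _ (hN r p)
    · rw [Ideal.span_singleton_le_iff_mem]
      have hgen : res (X.basicOpen_le (b p)) (gen p) ∈
          (Ideal.span (gen '' S)).map (res (X.basicOpen_le (b p))) :=
        Ideal.mem_map_of_mem _ (Ideal.subset_span ⟨p, hpS, rfl⟩)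
      have hbu : IsUnit (res (X.basicOpen_le (b p)) (b p ^ M p)) := by
        rw [map_pow]
        exact (X.toLocallyRingedSpace.toRingedSpace.isUnit_res_basicOpen (b p)).pow _
      rw [show gen p = b p ^ M p * a p from rfl, map_mul, hu, ← mul_assoc] at hgen
      exact (Ideal.unit_mul_mem_iff_mem _ (hbu.mul (u p).isUnit)).mp hgen
  · classical
    exact ⟨S.image gen, by rw [Finset.coe_image]⟩

end Fermat.Agent.Jacobian
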