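/-
Algebra for zero schemes: the ideal of a section of a projective module, monic annihilators,
and freeness of quotients near a point.
-/
import Mathlib

set_option autoImplicit false

universe u

open TensorProduct Polynomial

noncomputable section

namespace Fermat.Agent.Jacobian

section ZeroIdeal

variable {A A' : Type u} [CommRing A] [CommRing A'] [Algebra A A']
variable {M M' : Type u} [AddCommGroup M] [Module A M] [AddCommGroup M'] [Module A M']
  [Module A' M'] [IsScalarTower A A' M']

/-- The ideal of the values on `s` of the linear forms: the ideal of zeros of `s`. -/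
def zeroIdeal (s : M) : Ideal A := LinearMap.range (Module.Dual.eval A M s)

theorem mem_zeroIdeal {s : M} {a : A} :
    a ∈ zeroIdeal s ↔ ∃ φ : Module.Dual A M, φ s = a := Iff.rfl

/-- For an isomorphism with the ring, the zero ideal is generated by the coordinate. -/
theorem zeroIdeal_eq_span (e : M ≃ₗ[A] A) (s : M) : zeroIdeal s = Ideal.span {e s} := by
  ext a
  rw [mem_zeroIdeal, Ideal.mem_span_singleton']
  constructor
  · rintro ⟨φ, rfl⟩
    refine ⟨φ (e.symm 1), ?_⟩
    calc φ (e.symm 1) * e s = φ (e s • e.symm 1) := by
          rw [map_smul, smul_eq_mul, mul_comm]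
      _ = φ s := by rw [← map_smul, smul_eq_mul, mul_one, e.symm_apply_apply]
  · rintro ⟨r, rfl⟩
    exact ⟨r • (e : M →ₗ[A] A), rfl⟩

/-- The zero ideal commutes with base change. -/
theorem zeroIdeal_baseChange [Module.Finite A M] [Module.Projective A M] {f : M →ₗ[A] M'}
    (hf : IsBaseChange A' f) (s : M) :
    zeroIdeal (A := A') (f s) = (zeroIdeal (A := A) s).map (algebraMap A A') := by
  refine le_antisymm ?_ ?_
  · obtain ⟨n, p, q, -, -, hpq⟩ := Module.Finite.exists_comp_eq_id_of_projective A M
    rintro a ⟨φ, rfl⟩
    have hs : s = ∑ i, (q s i) • p (Pi.single i 1) := by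
      conv_lhs => rw [← LinearMap.id_apply (R := A) s, ← hpq, LinearMap.comp_apply,
        pi_eq_sum_univ' (q s), map_sum]
      simp only [map_smul]
    show φ (f s) ∈ _
    have hfs : f s = ∑ i, f ((q s i) • p (Pi.single i 1)) := (congrArg f hs).trans (map_sum f _ _)
    rw [hfs, map_sum]
    refine Ideal.sum_mem _ fun i _ => ?_
    rw [map_smul, ← algebraMap_smul A' (q s i) (f _), map_smul, smul_eq_mul]
    refine Ideal.mul_mem_right _ _ (Ideal.mem_map_of_mem _ ?_)
    exact ⟨(LinearMap.proj i).comp q, rfl⟩
  · rw [Ideal.map_le_iff_le_comap]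
    rintro a ⟨φ, rfl⟩
    exact ⟨hf.lift ((Algebra.linearMap A A').comp φ), hf.lift_eq _ s⟩

end ZeroIdeal

section Monic

variable {B A : Type u} [CommRing B] [CommRing A] [Algebra (Polynomial B) A]
  [Module.Free (Polynomial B) A] [Module.Finite (Polynomial B) A]

/-- An element which is `1` modulo the coordinate divides a polynomial with constant term `1`. -/
theorem exists_coeff_zero_eq_one_mem_span (w : A)
    (hw : w - 1 ∈ Ideal.span {algebraMap (Polynomial B) A X}) :
    ∃ P : Polynomial B, P.coeff 0 = 1 ∧ algebraMap (Polynomial B) A P ∈ Ideal.span {w} := by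
  rcases subsingleton_or_nontrivial B with hB | hB
  · exact ⟨1, Subsingleton.elim _ _, by
      rw [show (1 : Polynomial B) = 0 from Subsingleton.elim _ _, map_zero]; exact zero_mem _⟩
  classical
  let b := Module.Free.chooseBasis (Polynomial B) A
  let Mw := Algebra.leftMulMatrix b w
  refine ⟨Mw.det, ?_, ?_⟩
  · obtain ⟨a, ha⟩ := Ideal.mem_span_singleton'.mp hw
    have h1 : w = 1 + (X : Polynomial B) • a := by
      rw [Algebra.smul_def, mul_comm, ha, add_sub_cancel]
    have h2 : Mw = 1 + (X : Polynomial B) • Algebra.leftMulMatrix b a := by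
      show Algebra.leftMulMatrix b w = _
      rw [h1, map_add, map_one, map_smul]
    rw [coeff_zero_eq_eval_zero, ← coe_evalRingHom, RingHom.map_det, h2]
    have h3 : (evalRingHom (0 : B)).mapMatrix
        ((1 : Matrix _ _ (Polynomial B)) + (X : Polynomial B) • Algebra.leftMulMatrix b a) = 1 := by
      rw [map_add, map_one, add_eq_left]
      ext i j
      simp
    rw [h3, Matrix.det_one]
  · have hadj : Mw.adjugate * Mw = Mw.det • (1 : Matrix _ _ (Polynomial B)) := Matrix.adjugate_mul Mw
    let v : A := b.equivFun.symm (Mw.adjugate.mulVec (b.equivFun 1))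
    refine Ideal.mem_span_singleton'.mpr ⟨v, b.equivFun.injective ?_⟩
    have e1 : ∀ y : A, b.equivFun (w * y) = Mw.mulVec (b.equivFun y) := fun y =>
      (Algebra.leftMulMatrix_mulVec_repr b w y).symm
    rw [mul_comm v w, e1, LinearEquiv.apply_symm_apply, Matrix.mulVec_mulVec,
      Matrix.mul_adjugate, Matrix.smul_mulVec, Matrix.one_mulVec, ← map_smul, Algebra.smul_def,
      mul_one]

end Monic

section FreeQuotient

variable {B : Type u} [CommRing B] {F R Q : Type u} [AddCommGroup F] [Module B F]
  [AddCommGroup R] [Module B R] [AddCommGroup Q] [Module B Q]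

/-- Over a local ring: the cokernel of a map to a flat module which is injective on the residue
field is free, any basis of its fibre lifting to a basis. -/
theorem exists_basis_cokernel [IsLocalRing B] [Module.Flat B R] [Module.FinitePresentation B Q]
    {u : F →ₗ[B] R} {π : R →ₗ[B] Q} (hex : Function.Exact u π) (hπ : Function.Surjective π)
    (hu : Function.Injective (u.lTensor (IsLocalRing.ResidueField B)))
    {ι : Type u} (v : ι → Q)
    (hli : LinearIndependent (IsLocalRing.ResidueField B)
      (TensorProduct.mk B (IsLocalRing.ResidueField B) Q 1 ∘ v))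
    (hsp : Submodule.span (IsLocalRing.ResidueField B)
      (Set.range (TensorProduct.mk B (IsLocalRing.ResidueField B) Q 1 ∘ v)) = ⊤) :
    ∃ b : Module.Basis ι B Q, ∀ i, b i = v i := by
  refine Module.exists_basis_of_basis_baseChange v hli hsp ?_
  rw [← LinearMap.lTensor_inj_iff_rTensor_inj]
  exact lTensor_injective_of_exact_of_exact_of_rTensor_injective hex hπ
    (LinearMap.exact_subtype_mkQ (IsLocalRing.maximalIdeal B)) (Submodule.mkQ_surjective _)
    ((LinearMap.lTensor_inj_iff_rTensor_inj _ _).mp hu)
    (Module.Flat.lTensor_preserves_injective_linearMap _ Subtype.val_injective)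

end FreeQuotient

end Fermat.Agent.Jacobian
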