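/-
Transfer of monic annihilators between the two coordinates, finiteness of the quotient they
annihilate, and bases of such quotients near a point.
-/
import Fermat.Agent.Jacobian.Divisor.Algebra

set_option autoImplicit false

universe u

open TensorProduct Polynomial

noncomputable section

namespace Fermat.Agent.Jacobian

section Monic

variable {B A0 A1 A01 : Type u} [CommRing B] [CommRing A0] [CommRing A1] [CommRing A01]

/-- A polynomial in `y` with constant term `1` in an ideal on the chart of `y` gives a monic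
polynomial in `x` in the corresponding ideal on the chart of `x`. -/
theorem exists_monic_mem (b0 : B →+* A0) (b1 : B →+* A1) (r0 : A0 →+* A01) (r1 : A1 →+* A01)
    (hb : r1.comp b1 = r0.comp b0) (x : A0) (y : A1) (hxy : r0 x * r1 y = 1)
    (hloc : @IsLocalization.Away A0 _ x A01 _ r0.toAlgebra) (J0 : Ideal A0) (J1 : Ideal A1)
    (hJ : J1.map r1 ≤ J0.map r0) (P : Polynomial B) (hP : P.coeff 0 = 1)
    (hPJ : P.eval₂ b1 y ∈ J1) :
    ∃ m : Polynomial B, m.Monic ∧ m.eval₂ b0 x ∈ J0 := by
  set N := P.natDegree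
  let m := P.reflect N
  have hm : m.Monic := monic_of_natDegree_le_of_coeff_eq_one N
    (natDegree_reflect_le.trans (max_le le_rfl le_rfl)) (by
      show coeff (P.reflect N) N = 1
      rw [coeff_reflect, revAt_le le_rfl, Nat.sub_self, hP])
  have hmem : r0 (m.eval₂ b0 x) ∈ J0.map r0 := by
    let : Invertible (r1 y) := ⟨r0 x, hxy, (mul_comm _ _).trans hxy⟩
    have h := eval₂_reflect_mul_pow (r0.comp b0) (r1 y) N P le_rfl
    have hinv : (⅟ (r1 y) : A01) = r0 x := rfl
    rw [hinv] at h
    have h2 : r0 (m.eval₂ b0 x) * r1 y ^ N ∈ J0.map r0 := by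
      rw [hom_eval₂]
      show eval₂ (r0.comp b0) (r0 x) (reflect N P) * r1 y ^ N ∈ _
      rw [h, ← hb, ← hom_eval₂]
      exact hJ (Ideal.mem_map_of_mem _ hPJ)
    have h3 := Ideal.mul_mem_right (r0 x ^ N) _ h2
    rwa [mul_assoc, ← mul_pow, mul_comm (r1 y), hxy, one_pow, mul_one] at h3
  letI := r0.toAlgebra
  have := hloc
  obtain ⟨_, ⟨r, rfl⟩, hr⟩ :=
    (IsLocalization.algebraMap_mem_map_algebraMap_iff (Submonoid.powers x) A01 J0 _).mp hmem
  refine ⟨X ^ r * m, (monic_X_pow r).mul hm, ?_⟩
  rwa [eval₂_mul, eval₂_pow, eval₂_X]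

end Monic

section Finite

variable {B A : Type u} [CommRing B] [CommRing A] [Algebra B A]

/-- The quotient by an ideal containing a monic polynomial in `x` is finite over the base, when
the ring is finite over the polynomials in `x`. -/
theorem finite_quotient_of_monic_mem {n : ℕ} (x : A) (b : Fin n → A)
    (hgen : Function.Surjective
      fun q : Fin n → Polynomial B => ∑ i, (q i).eval₂ (algebraMap B A) x * b i)
    (J : Ideal A) (m : Polynomial B) (hm : m.Monic) (hmJ : m.eval₂ (algebraMap B A) x ∈ J) :
    Module.Finite B (A ⧸ J) := by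
  classical
  refine ⟨⟨(Finset.univ ×ˢ Finset.range m.natDegree).image
    (fun ij : Fin n × ℕ => Ideal.Quotient.mk J (x ^ ij.2 * b ij.1)), eq_top_iff.mpr ?_⟩⟩
  rintro a -
  obtain ⟨a, rfl⟩ := Ideal.Quotient.mk_surjective a
  obtain ⟨q, rfl⟩ := hgen a
  rw [map_sum]
  refine Submodule.sum_mem _ fun i _ => ?_
  have hq : Ideal.Quotient.mk J ((q i).eval₂ (algebraMap B A) x * b i) =
      Ideal.Quotient.mk J (((q i) %ₘ m).eval₂ (algebraMap B A) x * b i) := by
    rw [Ideal.Quotient.eq]
    conv in (q i).eval₂ _ _ => rw [← modByMonic_add_div (q i) m]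
    rw [eval₂_add, eval₂_mul, add_mul, add_sub_cancel_left]
    exact Ideal.mul_mem_right _ _ (Ideal.mul_mem_right _ _ hmJ)
  rw [hq]
  rcases subsingleton_or_nontrivial B with hB | hB
  · rw [show (q i) %ₘ m = 0 from Subsingleton.elim _ _, eval₂_zero, zero_mul, map_zero]
    exact zero_mem _
  rcases eq_or_ne ((q i) %ₘ m) 0 with h0 | h0
  · rw [h0, eval₂_zero, zero_mul, map_zero]
    exact zero_mem _
  have hlt : ((q i) %ₘ m).natDegree < m.natDegree :=
    natDegree_lt_natDegree h0 (degree_modByMonic_lt _ hm)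
  rw [eval₂_eq_sum_range, Finset.sum_mul, map_sum]
  refine Submodule.sum_mem _ fun j hj => ?_
  rw [mul_assoc, ← Algebra.smul_def, ← Ideal.Quotient.mkₐ_eq_mk B, map_smul]
  refine Submodule.smul_mem _ _ (Submodule.subset_span ?_)
  rw [Finset.coe_image, Set.mem_image]
  refine ⟨(i, j), ?_, rfl⟩
  simp only [Finset.coe_product, Set.mem_prod, Finset.mem_coe, Finset.mem_univ, Finset.mem_range,
    true_and]
  exact lt_of_le_of_lt (Nat.lt_succ_iff.mp (Finset.mem_range.mp hj)) hlt

/-- Such a quotient is finitely presented as a module over the base. -/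
theorem finitePresentation_quotient_of_monic_mem [Algebra.FinitePresentation B A] {n : ℕ} (x : A)
    (b : Fin n → A) (hgen : Function.Surjective
      fun q : Fin n → Polynomial B => ∑ i, (q i).eval₂ (algebraMap B A) x * b i)
    (J : Ideal A) (hJ : J.FG) (m : Polynomial B) (hm : m.Monic)
    (hmJ : m.eval₂ (algebraMap B A) x ∈ J) :
    Module.FinitePresentation B (A ⧸ J) := by
  have := finite_quotient_of_monic_mem x b hgen J m hm hmJ
  have : Algebra.FinitePresentation B (A ⧸ J) := Algebra.FinitePresentation.quotient hJ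
  exact Module.FinitePresentation.of_finite_of_finitePresentation B _

end Finite

section Near

variable {B : Type u} [CommRing B] {F R Q : Type u} [AddCommGroup F] [Module B F]
  [AddCommGroup R] [Module B R] [AddCommGroup Q] [Module B Q]

/-- If the fibre of `u : F → R` at a prime is injective and `g` elements of the cokernel form a
basis of its fibre there, they form a basis of the cokernel near the prime. -/
theorem exists_away_bijective [Module.Flat B R] [Module.FinitePresentation B Q]
    {u : F →ₗ[B] R} {π : R →ₗ[B] Q} (hex : Function.Exact u π) (hπ : Function.Surjective π)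
    (p : Ideal B) [p.IsPrime] (hu : Function.Injective (u.lTensor p.ResidueField))
    {ι : Type u} [Fintype ι] (v : (ι → B) →ₗ[B] Q)
    (hv : Function.Bijective (v.lTensor p.ResidueField)) :
    ∃ h ∉ p, Function.Bijective (LocalizedModule.map (Submonoid.powers h) v) := by
  classical
  let Bp := Localization.AtPrime p
  let κ := IsLocalRing.ResidueField Bp
  let cc : ∀ (M : Type u) [AddCommGroup M] [Module B M],
      κ ⊗[Bp] (Bp ⊗[B] M) ≃ₗ[Bp] κ ⊗[B] M := fun M _ _ =>
    AlgebraTensorModule.cancelBaseChange B Bp Bp κ M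
  have hcc : ∀ {M N : Type u} [AddCommGroup M] [Module B M] [AddCommGroup N] [Module B N]
      (f : M →ₗ[B] N) (z : κ ⊗[Bp] (Bp ⊗[B] M)),
      cc N ((f.baseChange Bp).lTensor κ z) = f.lTensor κ (cc M z) := by
    intro M N _ _ _ _ f z
    induction z with
    | zero => simp only [map_zero]
    | tmul a m =>
      induction m with
      | zero => simp only [tmul_zero, map_zero]
      | tmul b m =>
        simp only [cc, LinearMap.lTensor_tmul, LinearMap.baseChange_tmul,
          AlgebraTensorModule.cancelBaseChange_tmul]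
      | add m₁ m₂ h₁ h₂ => simp only [tmul_add, map_add, h₁, h₂]
    | add z₁ z₂ h₁ h₂ => simp only [map_add, h₁, h₂]
  have hu' : Function.Injective ((u.baseChange Bp).lTensor κ) := fun a b hab =>
    (cc F).injective (hu (by
      have := congrArg (cc R) hab
      rw [hcc, hcc] at this
      exact this))
  have hv' : Function.Bijective ((v.baseChange Bp).lTensor κ) := by
    have : (cc Q : _ → _) ∘ (v.baseChange Bp).lTensor κ = v.lTensor κ ∘ cc (ι → B) :=
      funext fun z => hcc v z
    have h := hv.comp (cc (ι → B)).bijective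
    rw [show Function.Bijective ((v.baseChange Bp).lTensor κ) ↔
      Function.Bijective ((cc Q : _ → _) ∘ (v.baseChange Bp).lTensor κ) from
        ((cc Q).toEquiv.comp_bijective _).symm, this]
    exact h
  let bι : Module.Basis ι Bp (Bp ⊗[B] (ι → B)) := Algebra.TensorProduct.basis Bp (Pi.basisFun B ι)
  let bκ : Module.Basis ι κ (κ ⊗[Bp] (Bp ⊗[B] (ι → B))) := Algebra.TensorProduct.basis κ bι
  let w : ι → Bp ⊗[B] Q := fun i => (v.baseChange Bp) (bι i)
  let vκ : κ ⊗[Bp] (Bp ⊗[B] (ι → B)) →ₗ[κ] κ ⊗[Bp] (Bp ⊗[B] Q) := (v.baseChange Bp).baseChange κ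
  have hvκ : Function.Bijective vκ := hv'
  have hw : (fun i => vκ (bκ i)) = TensorProduct.mk Bp κ (Bp ⊗[B] Q) 1 ∘ w := by
    funext i
    simp [vκ, bκ, w]
  have hli := bκ.linearIndependent.map' vκ (LinearMap.ker_eq_bot.mpr hvκ.1)
  rw [show ((vκ : _ → _) ∘ bκ) = _ from hw] at hli
  have hsp : Submodule.span κ (Set.range (TensorProduct.mk Bp κ (Bp ⊗[B] Q) 1 ∘ w)) = ⊤ := by
    rw [← hw, show (fun i => vκ (bκ i)) = (vκ : _ → _) ∘ bκ from rfl, Set.range_comp,
      Submodule.span_image, bκ.span_eq, Submodule.map_top, LinearMap.range_eq_top]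
    exact hvκ.2
  obtain ⟨b, hb⟩ := exists_basis_cokernel (B := Bp) (u := u.baseChange Bp) (π := π.baseChange Bp)
    (lTensor_exact Bp hex hπ) (LinearMap.lTensor_surjective Bp hπ) hu' w hli hsp
  have hbij : Function.Bijective (v.baseChange Bp) := by
    have : v.baseChange Bp = (bι.equiv b (Equiv.refl ι)).toLinearMap :=
      bι.ext fun i => by simp [w, hb]
    rw [this]
    exact (bι.equiv b (Equiv.refl ι)).bijective
  obtain ⟨h, hh, hh'⟩ := Module.FinitePresentation.exists_notMem_bijective v p
    (TensorProduct.mk B Bp (ι → B) 1) (TensorProduct.mk B Bp Q 1) (by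
      have : IsLocalizedModule.map p.primeCompl (TensorProduct.mk B Bp (ι → B) 1)
          (TensorProduct.mk B Bp Q 1) v = (v.baseChange Bp).restrictScalars B := by
        refine IsLocalizedModule.ext p.primeCompl (TensorProduct.mk B Bp (ι → B) 1)
          (IsLocalizedModule.map_units (TensorProduct.mk B Bp Q 1)) (LinearMap.ext fun z => ?_)
        simp
        exact IsLocalizedModule.map_apply p.primeCompl (TensorProduct.mk B Bp (ι → B) 1)
          (TensorProduct.mk B Bp Q 1) v z
      rw [this]
      exact hbij)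
  exact ⟨h, hh, hh'⟩

end Near

end Fermat.Agent.Jacobian
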