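/-
Sections vanishing along a divisor are the multiples of its section.
-/
import Fermat.Agent.Jacobian.Core.Defs
import Fermat.Agent.Jacobian.Line.AffineSheaf

set_option autoImplicit false
set_option linter.unusedVariables false

universe u

open CategoryTheory AlgebraicGeometry TopologicalSpace Opposite

noncomputable section

namespace Fermat.Agent.Jacobian

variable {Z X : Scheme.{u}} {i : Z ⟶ X}

/-- The affine opens inside an open cover it. -/
theorem affine_le_cover (W : X.Opens) :
    W ≤ iSup fun V : {V : X.Opens // IsAffineOpen V ∧ V ≤ W} => V.1 := by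
  intro q hq
  obtain ⟨_, ⟨V, hV, rfl⟩, hqV, hle⟩ := X.isBasis_affineOpens.exists_subset_of_mem_open hq W.2
  exact Opens.mem_iSup.mpr ⟨⟨V, hV, hle⟩, hqV⟩

theorem LineDivisor.mul_coord_cancel (E : LineDivisor i) (x : X) {W : X.Opens} (hx : W ≤ E.L.U x)
    {a b : Γ(X, W)} (h : a * E.s.coord x W le_top hx = b * E.s.coord x W le_top hx) : a = b := by
  refine fun_ext _ (fun V : {V : X.Opens // IsAffineOpen V ∧ V ≤ W} => V.2.2)
    (affine_le_cover W) fun V => ?_
  have := congrArg (res V.2.2) h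
  rw [map_mul, map_mul, E.s.coord_res] at this
  exact (E.regular x V.1 V.2.1 (V.2.2.trans hx)).right this

/-- A section which vanishes along the divisor, in a frame, vanishes on the subscheme. -/
theorem coord_app_eq_zero {M : LineSys X} {V : X.Opens} (t : M.Sec V)
    (ht : t.pull i (V' := i ⁻¹ᵁ V) le_rfl = 0) (x : X) (W : X.Opens) (h : W ≤ V)
    (hx : W ≤ M.U x) : i.app W (t.coord x W h hx) = 0 := by
  refine fun_ext (U := i ⁻¹ᵁ W) (fun z : Z => i ⁻¹ᵁ (W ⊓ M.U (i z))) (fun z => (fun p hp => hp.1 : i ⁻¹ᵁ (W ⊓ M.U (i z)) ≤ i ⁻¹ᵁ W))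
    (fun z hz => Opens.mem_iSup.mpr ⟨z, hz, M.mem (i z)⟩) fun z => ?_
  rw [map_zero, Scheme.Hom.app_eq_appLE]
  refine (res_appLE i _ _ _).trans ?_
  have hle : i ⁻¹ᵁ (W ⊓ M.U (i z)) ≤ i ⁻¹ᵁ W := fun p hp => hp.1
  rw [← appLE_res i (inf_le_left : W ⊓ M.U (i z) ≤ W) le_rfl, t.coord_res,
    t.coord_g x (i z) _ (inf_le_left.trans h) (inf_le_left.trans hx) inf_le_right, map_mul,
    ← LineSys.Sec.coord_pull i (V' := i ⁻¹ᵁ V) le_rfl t z (i ⁻¹ᵁ (W ⊓ M.U (i z)))
      (fun p hp => h hp.1) (fun p hp => hp.2) (W ⊓ M.U (i z)) (inf_le_left.trans h) inf_le_right le_rfl,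
    ht]
  exact mul_zero _

/-- Sections vanishing along a divisor are multiples of its section, in a unique way. -/
theorem LineDivisor.existsUnique_mul_of_pull_eq_zero (E : LineDivisor i) (M : LineSys X)
    {V : X.Opens} (t : M.Sec V) (ht : t.pull i (V' := i ⁻¹ᵁ V) le_rfl = 0) :
    ∃! t' : (M.tens E.L.dual).Sec V, ∀ (x : X) (W : X.Opens) (h : W ≤ V) (hM : W ≤ M.U x)
      (hE : W ≤ E.L.U x), t.coord x W h hM =
        t'.coord x W h (le_inf hM hE) * E.s.coord x W le_top hE := by
  have hex : ∀ (x : X) (W : X.Opens) (h : W ≤ V) (hM : W ≤ M.U x) (hE : W ≤ E.L.U x),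
      ∃! a : Γ(X, W), t.coord x W h hM = a * E.s.coord x W le_top hE := by
    intro x W h hM hE
    refine existsUnique_of_exists_of_unique ?_ fun a b ha hb =>
      E.mul_coord_cancel x hE (ha.symm.trans hb)
    have hloc : ∀ W' : {W' : X.Opens // IsAffineOpen W' ∧ W' ≤ W}, ∃ a : Γ(X, W'.1),
        t.coord x W'.1 (W'.2.2.trans h) (W'.2.2.trans hM) =
          a * E.s.coord x W'.1 le_top (W'.2.2.trans hE) := by
      intro W'
      have hmem : t.coord x W'.1 (W'.2.2.trans h) (W'.2.2.trans hM) ∈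
          RingHom.ker (i.app W'.1).hom := coord_app_eq_zero t ht x _ _ _
      rw [E.ker_eq x W'.1 W'.2.1 (W'.2.2.trans hE), Ideal.mem_span_singleton'] at hmem
      obtain ⟨a, ha⟩ := hmem
      exact ⟨a, ha.symm⟩
    choose a ha using hloc
    obtain ⟨b, hb⟩ := exists_glue_fun
      (fun W' : {W' : X.Opens // IsAffineOpen W' ∧ W' ≤ W} => W'.1) (fun W' => W'.2.2)
      (affine_le_cover W) a (fun p q => by
        refine E.mul_coord_cancel x (inf_le_left.trans (p.2.2.trans hE)) ?_
        conv_lhs => rw [← E.s.coord_res x inf_le_left le_top (p.2.2.trans hE), ← map_mul, ← ha,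
          t.coord_res]
        conv_rhs => rw [← E.s.coord_res x inf_le_right le_top (q.2.2.trans hE), ← map_mul, ← ha,
          t.coord_res])
    refine ⟨b, fun_ext (fun W' : {W' : X.Opens // IsAffineOpen W' ∧ W' ≤ W} => W'.1)
      (fun W' => W'.2.2) (affine_le_cover W) fun W' => ?_⟩
    rw [map_mul, hb, t.coord_res, E.s.coord_res, ha]
  choose a ha hu using hex
  let t' : (M.tens E.L.dual).Sec V := LineSys.Sec.mk'
    (fun x W h hx => a x W h (hx.trans inf_le_left) (hx.trans inf_le_right))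
    (fun x W W' j h hx => hu _ _ _ _ _ _ (by
      have := congrArg (res j) (ha x W h (hx.trans inf_le_left) (hx.trans inf_le_right))
      rwa [map_mul, t.coord_res, E.s.coord_res] at this))
    (fun x y W h hx hy => Eq.symm (hu _ _ _ _ _ _ (by
      show _ = (Units.val (_ * _)) * _ * _
      rw [t.coord_g x y W h (hx.trans inf_le_left) (hy.trans inf_le_left),
        E.s.coord_g x y W le_top (hx.trans inf_le_right) (hy.trans inf_le_right),
        ha y W h (hy.trans inf_le_left) (hy.trans inf_le_right)]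
      show _ = Units.val (_ * (E.L.g x y W (hx.trans inf_le_right) (hy.trans inf_le_right))⁻¹) *
        _ * _
      rw [Units.val_mul]
      simp only [mul_assoc, mul_left_comm (a y W h _ _), Units.inv_mul_cancel_left])))
  refine ⟨t', fun x W h hM hE => ha x W h hM hE, fun t'' ht'' => ?_⟩
  ext x W h hx
  exact hu x W h (hx.trans inf_le_left) (hx.trans inf_le_right) _ (ht'' x W h _ _)

end Fermat.Agent.Jacobian
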